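import Mathlib

/-!
# Two by two matrices commuting with a matrix which is not scalar

The commutant is computed in `exists_eq_of_commute`, and `disc_ne_zero` separates eigenvalues in
finite order.
-/

set_option autoImplicit false

noncomputable section

namespace Fermat.DS

variable {k : Type*} [Field k]

local notation "M2k" => Matrix (Fin 2) (Fin 2) k

/-- A scalar matrix. -/
def IsScalarMat (g : M2k) : Prop := ∃ c : k, g = c • 1

/-- The pair (trace, determinant). -/
def cp (g : M2k) : k × k := (g.trace, g.det)

/-- The theorem of Cayley and Hamilton in dimension two. -/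
theorem mul_self_eq {R : Type*} [CommRing R] (g : Matrix (Fin 2) (Fin 2) R) :
    g * g = g.trace • g - g.det • 1 := by
  ext i j
  fin_cases i <;> fin_cases j <;>
    simp [Matrix.mul_apply, Fin.sum_univ_two, Matrix.trace_fin_two, Matrix.det_fin_two] <;> ring

/-- **The commutant of a matrix which is not scalar.** -/
theorem exists_eq_of_commute {g h : M2k} (hg : ¬ IsScalarMat g) (hc : g * h = h * g) :
    ∃ a b : k, h = a • 1 + b • g := by
  have e00 := congrFun (congrFun hc 0) 0
  have e01 := congrFun (congrFun hc 0) 1
  have e10 := congrFun (congrFun hc 1) 0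
  simp only [Matrix.mul_apply, Fin.sum_univ_two] at e00 e01 e10
  by_cases h01 : g 0 1 = 0
  · by_cases h10 : g 1 0 = 0
    -- diagonal with distinct entries: `h` is diagonal too
    · have hne : g 0 0 - g 1 1 ≠ 0 := fun e => hg ⟨g 0 0, by
        have e' := sub_eq_zero.mp e
        ext i j
        fin_cases i <;> fin_cases j <;> simp [h01, h10, ← e']⟩
      have a01 : h 0 1 = 0 := by
        rw [h01] at e01
        exact (mul_eq_zero.mp
          (show (g 0 0 - g 1 1) * h 0 1 = 0 by linear_combination e01)).resolve_left hne
      have a10 : h 1 0 = 0 := by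
        rw [h10] at e10
        exact (mul_eq_zero.mp
          (show (g 0 0 - g 1 1) * h 1 0 = 0 by linear_combination -e10)).resolve_left hne
      refine ⟨h 0 0 - (h 0 0 - h 1 1) / (g 0 0 - g 1 1) * g 0 0,
        (h 0 0 - h 1 1) / (g 0 0 - g 1 1), ?_⟩
      ext i j
      fin_cases i <;> fin_cases j <;> simp [h01, h10, a01, a10]
      field_simp
      ring
    -- lower triangular: read `b` off the bottom left entry
    · refine ⟨h 0 0 - h 1 0 / g 1 0 * g 0 0, h 1 0 / g 1 0, ?_⟩
      have b01 : h 0 1 = 0 := by
        rw [h01] at e00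
        exact (mul_eq_zero.mp (show g 1 0 * h 0 1 = 0 by linear_combination -e00)).resolve_left h10
      ext i j
      fin_cases i <;> fin_cases j <;> simp [h01, b01, h10]
      field_simp
      linear_combination -e10
  -- otherwise off the top right one
  · refine ⟨h 0 0 - h 0 1 / g 0 1 * g 0 0, h 0 1 / g 0 1, ?_⟩
    ext i j
    fin_cases i <;> fin_cases j <;> simp [h01]
    · field_simp
      linear_combination e00
    · field_simp
      linear_combination e01

/-- Polynomials in one matrix commute. -/
theorem commute_of_eq {g : M2k} (a b a' b' : k) :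
    (a • (1 : M2k) + b • g) * (a' • 1 + b' • g) = (a' • 1 + b' • g) * (a • 1 + b • g) := by
  have h : ∀ u v : k, Commute g (u • (1 : M2k) + v • g) := fun u v =>
    ((Commute.one_right g).smul_right u).add_right ((Commute.refl g).smul_right v)
  exact (((Commute.one_left (a' • (1 : M2k) + b' • g)).smul_left a).add_left
    ((h a' b').smul_left b)).eq

/-- In the commutant, the matrices with the same characteristic polynomial are `g` and its
conjugate root. -/
theorem eq_or_eq_of_cp_eq {g h : M2k} (hD : g.trace ^ 2 - 4 * g.det ≠ 0) {a b : k}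
    (hh : h = a • 1 + b • g) (hcp : cp h = cp g) : h = g ∨ h = g.trace • 1 - g := by
  subst hh
  obtain ⟨e1, e2⟩ := Prod.ext_iff.mp hcp
  simp only [cp] at e1 e2
  -- equal trace and determinant force `b = ±1`
  have h1 : 2 * a + b * g.trace = g.trace := by
    simp [Matrix.trace_fin_two] at e1 ⊢
    linear_combination e1
  have h2 : a ^ 2 + a * b * g.trace + b ^ 2 * g.det = g.det := by
    simp [Matrix.det_fin_two, Matrix.trace_fin_two] at e2 ⊢
    linear_combination e2
  have hb : b = 1 ∨ b = -1 := by
    refine sq_eq_one_iff.mp (sub_eq_zero.mp ((mul_eq_zero.mp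
      (show (b ^ 2 - 1) * (g.trace ^ 2 - 4 * g.det) = 0 from ?_)).resolve_right hD))
    linear_combination (2 * a + b * g.trace + g.trace) * h1 - 4 * h2
  have hneg : (2 : k) = 0 → ∀ x : k, -x = x := fun e x => by linear_combination (-x) * e
  rcases hb with rfl | rfl
  -- `b = 1`: then `a = 0`, or the characteristic is two
  · rcases eq_or_ne a 0 with rfl | ha
    · left; simp
    · have h2' : (2 : k) = 0 :=
        (mul_eq_zero.mp (show (2 : k) * a = 0 by linear_combination h1)).resolve_right ha
      have : a + g.trace = 0 :=
        (mul_eq_zero.mp (show a * (a + g.trace) = 0 by linear_combination h2)).resolve_left ha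
      right
      rw [show a = g.trace by rw [← hneg h2' g.trace]; linear_combination this, sub_eq_add_neg,
        one_smul]
      congr 1
      ext i j
      exact (hneg h2' (g i j)).symm
  -- `b = -1`: then `a` is the trace, or the characteristic is two
  · rcases eq_or_ne a g.trace with rfl | ha
    · right; simp [sub_eq_add_neg]
    · have h2' : (2 : k) = 0 :=
        (mul_eq_zero.mp (show (2 : k) * (a - g.trace) = 0 by linear_combination h1)).resolve_right
          (sub_ne_zero.mpr ha)
      have : a = 0 :=
        (mul_eq_zero.mp (show a * (a - g.trace) = 0 by linear_combination h2)).resolve_right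
          (sub_ne_zero.mpr ha)
      left
      rw [this, zero_smul, zero_add, neg_one_smul]
      ext i j
      exact hneg h2' (g i j)

/-- A power of `r + n` with `n ^ 2 = 0`. -/
theorem pow_scalar_add (r : k) {n : M2k} (hn : n * n = 0) (m : ℕ) :
    (r • (1 : M2k) + n) ^ (m + 1) = r ^ (m + 1) • 1 + (((m + 1 : ℕ) : k) * r ^ m) • n := by
  induction m with
  | zero => simp
  | succ m ih =>
    rw [pow_succ, ih]
    simp only [add_mul, mul_add, smul_mul_assoc, mul_smul_comm, one_mul, mul_one, hn, smul_zero,
      add_zero]
    push_cast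
    module

/-- A matrix of finite order prime to the characteristic which is not scalar has two distinct
eigenvalues. -/
theorem disc_ne_zero {g : M2k} {m : ℕ} (hm : (m : k) ≠ 0) (hg : g ^ m = 1)
    (hns : ¬ IsScalarMat g) : g.trace ^ 2 - 4 * g.det ≠ 0 := by
  intro hD
  obtain ⟨m, rfl⟩ : ∃ m', m = m' + 1 := Nat.exists_eq_succ_of_ne_zero fun e => hm (by simp [e])
  by_cases h2 : (2 : k) = 0
  -- in characteristic two `g * g` is scalar and the order is odd
  · have ht : g.trace = 0 := by
      refine pow_eq_zero_iff (two_ne_zero : (2 : ℕ) ≠ 0) |>.mp ?_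
      linear_combination hD + 2 * g.det * h2
    have hgg : g * g = (-g.det) • 1 := by rw [mul_self_eq, ht, zero_smul, zero_sub, neg_smul]
    obtain ⟨u, hu⟩ : Odd (m + 1) := by
      rw [← Nat.not_even_iff_odd]
      rintro ⟨u, hu⟩
      exact hm (by rw [hu]; push_cast; linear_combination (u : k) * h2)
    refine hns ⟨(-g.det) ^ (u + 1), ?_⟩
    calc g = g * g ^ (m + 1) := by rw [hg, mul_one]
      _ = (g * g) ^ (u + 1) := by rw [← pow_succ', ← pow_two, ← pow_mul]; congr 1; omega
      _ = _ := by rw [hgg, smul_pow, one_pow]
  · set r := g.trace / 2 with hr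
    -- otherwise `g - r` squares to zero and `g ^ (m + 1) = 1` makes `g` scalar
    have hn : (g - r • 1) * (g - r • 1) = 0 := by
      rw [sub_mul, mul_sub, mul_sub, mul_smul_comm, smul_mul_assoc, smul_mul_assoc, one_mul,
        mul_one, mul_smul_comm, mul_one, mul_self_eq, smul_smul]
      ext i j
      by_cases hij : i = j
      · subst hij
        simp [hr]
        field_simp
        linear_combination hD
      · simp [hr, Matrix.one_apply_ne hij]
        field_simp
        ring
    have hd : g.det ≠ 0 := by
      intro e
      have h := congrArg Matrix.det hg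
      rw [Matrix.det_pow, e, Matrix.det_one, zero_pow m.succ_ne_zero] at h
      exact zero_ne_one h
    have hr0 : r ≠ 0 := by
      intro e
      rw [hr, div_eq_zero_iff, or_iff_left h2] at e
      rw [e] at hD
      refine hd ((mul_eq_zero.mp (show (2 * 2 : k) * g.det = 0 from ?_)).resolve_left
        (mul_ne_zero h2 h2))
      linear_combination -hD
    have h := pow_scalar_add r hn m
    rw [add_sub_cancel, hg] at h
    have hc : ((m + 1 : ℕ) : k) * r ^ m ≠ 0 := mul_ne_zero hm (pow_ne_zero _ hr0)
    refine hns ⟨r + (1 - r ^ (m + 1)) / (((m + 1 : ℕ) : k) * r ^ m), ?_⟩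
    have h' : g - r • 1 = ((((m + 1 : ℕ) : k) * r ^ m)⁻¹ * (1 - r ^ (m + 1))) • (1 : M2k) := by
      rw [← smul_smul, sub_smul, one_smul, eq_inv_smul_iff₀ hc, eq_sub_iff_add_eq']
      exact h.symm
    rw [add_smul, div_eq_inv_mul, ← h', add_sub_cancel]

end Fermat.DS

end
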