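import Fermat.Agent.DS.Grp.Torus

/-!
# Semisimple groups of order divisible by the characteristic, with traces in the prime field

Such a group holds, in a suitable basis, the two root subgroups over the prime field and only
matrices with entries there.  A characteristic polynomial then occurs at most `2 l²` times, while
the group has more than `l² (l - 1)` elements.
-/

set_option autoImplicit false

noncomputable section

open Matrix

namespace Fermat.DS

variable {k : Type*} [Field k]

local notation "M2k" => Matrix (Fin 2) (Fin 2) k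

/-- Two vectors as the columns of a matrix. -/
def cols (v w : Fin 2 → k) : M2k := !![v 0, w 0; v 1, w 1]

/-- A matrix acts column by column. -/
theorem mul_cols (A : M2k) (v w : Fin 2 → k) : A * cols v w = cols (A *ᵥ v) (A *ᵥ w) := by
  ext i j
  fin_cases i <;> fin_cases j <;>
    simp [cols, Matrix.mulVec, dotProduct, Matrix.mul_apply, Fin.sum_univ_two]

/-- Columns of determinant zero are proportional. -/
theorem exists_eq_smul_of_det {v w : Fin 2 → k} (hv : v ≠ 0) (h : (cols v w).det = 0) :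
    ∃ c : k, w = c • v := by
  simp [cols, Matrix.det_fin_two] at h
  rcases eq_or_ne (v 0) 0 with h0 | h0
  · have h1 : v 1 ≠ 0 := fun h1 => hv (funext fun i => by fin_cases i <;> assumption)
    have hw : w 0 = 0 := by
      rw [h0] at h
      exact (mul_eq_zero.mp (show v 1 * w 0 = 0 by linear_combination -h)).resolve_left h1
    exact ⟨w 1 / v 1, funext fun i => by fin_cases i <;> simp [h0, hw, h1]⟩
  · refine ⟨w 0 / v 0, funext fun i => ?_⟩
    fin_cases i <;> simp [h0]
    field_simp
    linear_combination h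

/-- A matrix killing a basis is zero. -/
theorem eq_zero_of_kills {N : M2k} {v w : Fin 2 → k} (hd : (cols v w).det ≠ 0) (hv : N *ᵥ v = 0)
    (hw : N *ᵥ w = 0) : N = 0 := by
  have h : N * cols v w = 0 := by
    rw [mul_cols, hv, hw]
    ext i j
    fin_cases i <;> fin_cases j <;> simp [cols]
  have : Invertible (cols v w) := Matrix.invertibleOfIsUnitDet _ (isUnit_iff_ne_zero.mpr hd)
  calc N = N * cols v w * ⅟ (cols v w) := by rw [mul_invOf_cancel_right]
    _ = 0 := by rw [h, zero_mul]

/-- A nilpotent two by two matrix has square zero. -/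
theorem mul_self_eq_zero_of_pow {N : M2k} {m : ℕ} (h : N ^ (m + 1) = 0) : N * N = 0 := by
  have hd : N.det = 0 := by
    have := congrArg Matrix.det h
    rw [Matrix.det_pow, Matrix.det_zero] at this
    exact (pow_eq_zero_iff m.succ_ne_zero).mp this
  have hN : N * N = N.trace • N := by rw [mul_self_eq, hd, zero_smul, sub_zero]
  have hpow : ∀ j : ℕ, N ^ (j + 1) = N.trace ^ j • N := fun j => by
    induction j with
    | zero => simp
    | succ j ih => rw [pow_succ, ih, smul_mul_assoc, hN, smul_smul, pow_succ]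
  rw [hpow] at h
  rcases smul_eq_zero.mp h with h | h
  · rw [hN, eq_zero_of_pow_eq_zero h, zero_smul]
  · rw [h, zero_mul]

variable (G : Subgroup (GL (Fin 2) k))

/-- A subgroup of order divisible by the characteristic has a nontrivial unipotent element. -/
theorem exists_mat_sub_one_sq_eq_zero [Finite G] {l : ℕ} [Fact l.Prime] [CharP k l]
    (hl : l ∣ Nat.card G) :
    ∃ u : G, (mat G u - 1) * (mat G u - 1) = 0 ∧ mat G u - 1 ≠ 0 := by
  have hlp : l.Prime := Fact.out
  obtain ⟨u, hu⟩ := exists_prime_orderOf_dvd_card' l hl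
  have hul : mat G u ^ l = 1 := by
    have h : mat G (u ^ l) = mat G u ^ l := map_pow ((Units.coeHom M2k).comp G.subtype) u l
    rw [← h, ← hu, pow_orderOf_eq_one]
    rfl
  refine ⟨u, mul_self_eq_zero_of_pow (m := l - 1) ?_, fun e => hlp.one_lt.ne' ?_⟩
  · rw [Nat.sub_add_cancel hlp.pos, sub_pow_char_of_commute l (Commute.one_right _), hul,
      one_pow, sub_self]
  · rw [← hu, show u = 1 from mat_injective G ((sub_eq_zero.mp e).trans rfl), orderOf_one]

/-- When every stable line has a stable complement, the line fixed by a nontrivial unipotent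
element is moved by the group. -/
theorem exists_mulVec_ne_smul
    (hss : ∀ v : Fin 2 → k, v ≠ 0 → (∀ g ∈ G, ∃ c : k, (g : M2k) *ᵥ v = c • v) →
      ∃ w : Fin 2 → k, (∀ c : k, w ≠ c • v) ∧ ∀ g ∈ G, ∃ c : k, (g : M2k) *ᵥ w = c • w)
    {u : G} (hN2 : (mat G u - 1) * (mat G u - 1) = 0) (hN0 : mat G u - 1 ≠ 0)
    {v : Fin 2 → k} (hv : v ≠ 0) (hNv : (mat G u - 1) *ᵥ v = 0) :
    ∃ x : G, ∀ c : k, mat G x *ᵥ v ≠ c • v := by
  by_contra! h
  obtain ⟨w, hw, hwG⟩ := hss v hv fun g hg => h ⟨g, hg⟩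
  have hd : (cols v w).det ≠ 0 := fun e => by
    obtain ⟨c, hc⟩ := exists_eq_smul_of_det hv e
    exact hw c hc
  obtain ⟨c, hc⟩ := hwG u.1 u.2
  have hNw : (mat G u - 1) *ᵥ w = (c - 1) • w := by
    rw [Matrix.sub_mulVec, Matrix.one_mulVec, sub_smul, one_smul]
    exact congrArg (· - w) hc
  have hw0 : w ≠ 0 := fun e => hw 0 (by rw [e, zero_smul])
  have h2 : (c - 1) * (c - 1) = 0 := by
    have h3 : ((mat G u - 1) * (mat G u - 1)) *ᵥ w = ((c - 1) * (c - 1)) • w := by
      rw [← Matrix.mulVec_mulVec, hNw, Matrix.mulVec_smul, hNw, smul_smul]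
    rw [hN2, Matrix.zero_mulVec] at h3
    exact (smul_eq_zero.mp h3.symm).resolve_right hw0
  refine hN0 (eq_zero_of_kills hd hNv ?_)
  rw [hNw, mul_self_eq_zero.mp h2, zero_smul]

/-- A nonzero square zero matrix killing the second vector of a basis is, with `1` added, lower
unipotent in that basis. -/
theorem exists_conj_lower_unipotent {C D M : M2k} (hCD : C * D = 1) (hDC : D * C = 1)
    (hM2 : M * M = 0) (hM0 : M ≠ 0) (hcol : ∀ i, (D * M * C) i 1 = 0) :
    ∃ b : k, b ≠ 0 ∧ D * (M + 1) * C = !![1, 0; b, 1] := by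
  set N := D * M * C with hN
  have hN2 : N * N = 0 := by
    rw [hN, show D * M * C * (D * M * C) = D * M * (C * D) * M * C by simp only [mul_assoc], hCD,
      mul_one, mul_assoc D, hM2, mul_zero, zero_mul]
  have h00 : N 0 0 = 0 := by
    have h := congrFun (congrFun hN2 0) 0
    simp [Matrix.mul_apply, Fin.sum_univ_two, hcol] at h
    exact h
  refine ⟨N 1 0, fun e => hM0 ?_, ?_⟩
  · have h : N = 0 := by
      ext i j
      fin_cases i <;> fin_cases j <;> simp [hcol, h00, e]
    calc M = (C * D) * M * (C * D) := by rw [hCD, one_mul, mul_one]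
      _ = C * N * D := by simp only [hN, mul_assoc]
      _ = 0 := by rw [h, mul_zero, zero_mul]
  · rw [mul_add, add_mul, mul_one, hDC, ← hN]
    ext i j
    fin_cases i <;> fin_cases j <;> simp [hcol, h00]

/-- The two root subgroups in a suitable basis. -/
theorem exists_unipotent_basis [Finite G] {l : ℕ} [Fact l.Prime] [CharP k l]
    (hl : l ∣ Nat.card G)
    (hss : ∀ v : Fin 2 → k, v ≠ 0 → (∀ g ∈ G, ∃ c : k, (g : M2k) *ᵥ v = c • v) →
      ∃ w : Fin 2 → k, (∀ c : k, w ≠ c • v) ∧ ∀ g ∈ G, ∃ c : k, (g : M2k) *ᵥ w = c • w) :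
    ∃ (C : M2k) (D : M2k) (u u' : G) (b : k), C * D = 1 ∧ b ≠ 0 ∧
      D * mat G u * C = !![1, 1; 0, 1] ∧ D * mat G u' * C = !![1, 0; b, 1] := by
  obtain ⟨u, hN2, hN0⟩ := exists_mat_sub_one_sq_eq_zero G hl
  set N := mat G u - 1 with hN
  obtain ⟨v₀, hv₀⟩ : ∃ v₀, N *ᵥ v₀ ≠ 0 := by
    by_contra! h
    exact hN0 (Matrix.ext_of_mulVec_single fun i => by rw [h, Matrix.zero_mulVec])
  set v := N *ᵥ v₀ with hv
  have hNv : N *ᵥ v = 0 := by rw [hv, Matrix.mulVec_mulVec, hN2, Matrix.zero_mulVec]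
  -- the line `v` is not stable: in the basis `N x v`, `x v` the element `u` is upper unipotent
  obtain ⟨x, hx⟩ := exists_mulVec_ne_smul G hss hN2 hN0 hv₀ hNv
  set w := mat G x *ᵥ v with hw
  have hNw : N *ᵥ w ≠ 0 := fun e => by
    refine hN0 (eq_zero_of_kills (fun e' => ?_) hNv e)
    obtain ⟨c, hc⟩ := exists_eq_smul_of_det hv₀ e'
    exact hx c hc
  set C := cols (N *ᵥ w) w with hC
  have hCdet : C.det ≠ 0 := fun e => by
    obtain ⟨c, hc⟩ := exists_eq_smul_of_det hNw e
    have h2 : N *ᵥ w = 0 := by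
      conv_lhs => rw [hc]
      rw [Matrix.mulVec_smul, Matrix.mulVec_mulVec, hN2, Matrix.zero_mulVec, smul_zero]
    exact hNw h2
  have : Invertible C := Matrix.invertibleOfIsUnitDet _ (isUnit_iff_ne_zero.mpr hCdet)
  set D : M2k := ⅟ C
  have hCD : C * D = 1 := mul_invOf_self C
  have hDC : D * C = 1 := invOf_mul_self C
  have h01 : cols (0 : Fin 2 → k) (N *ᵥ w) = C * !![0, 1; 0, 0] := by
    ext i j
    fin_cases i <;> fin_cases j <;> simp [hC, cols, Matrix.mul_apply, Fin.sum_univ_two]
  have hU : D * mat G u * C = !![1, 1; 0, 1] := by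
    rw [show mat G u = N + 1 by rw [hN, sub_add_cancel], mul_add, add_mul, mul_one, hDC, mul_assoc,
      show N * C = C * !![0, 1; 0, 0] by
        rw [← h01, hC, mul_cols, Matrix.mulVec_mulVec, hN2, Matrix.zero_mulVec],
      ← mul_assoc, hDC, one_mul]
    ext i j
    fin_cases i <;> fin_cases j <;> simp
  -- the conjugate by `x` fixes the other basis vector
  have hxx : mat G x⁻¹ * mat G x = 1 := by rw [← mat_mul, inv_mul_cancel]; rfl
  have hxx' : mat G x * mat G x⁻¹ = 1 := by rw [← mat_mul, mul_inv_cancel]; rfl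
  have hu' : mat G (x * u * x⁻¹) - 1 = mat G x * N * mat G x⁻¹ := by
    rw [hN, mul_sub, sub_mul, mul_one, hxx']
    rfl
  obtain ⟨b, hb, hL⟩ := exists_conj_lower_unipotent (M := mat G x * N * mat G x⁻¹) hCD hDC
    (by rw [show mat G x * N * mat G x⁻¹ * (mat G x * N * mat G x⁻¹) =
        mat G x * N * (mat G x⁻¹ * mat G x) * N * mat G x⁻¹ by simp only [mul_assoc], hxx, mul_one,
      mul_assoc (mat G x), hN2, mul_zero, zero_mul])
    (fun e => hN0 (by
      calc N = (mat G x⁻¹ * mat G x) * N * (mat G x⁻¹ * mat G x) := by rw [hxx, one_mul, mul_one]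
        _ = mat G x⁻¹ * (mat G x * N * mat G x⁻¹) * mat G x := by simp only [mul_assoc]
        _ = 0 := by rw [e, mul_zero, zero_mul]))
    fun i => by
      have hfix : (mat G x * N * mat G x⁻¹) *ᵥ w = 0 := by
        rw [hw, Matrix.mulVec_mulVec, show mat G x * N * mat G x⁻¹ * mat G x =
          mat G x * N by rw [mul_assoc (mat G x * N), hxx, mul_one], ← Matrix.mulVec_mulVec, hNv,
          Matrix.mulVec_zero]
      rw [mul_assoc, hC, mul_cols, hfix]
      simp [cols, Matrix.mul_apply, Fin.sum_univ_two]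
  refine ⟨C, D, u, x * u * x⁻¹, b, hCD, hb, hU, ?_⟩
  rw [← hL, ← hu', sub_add_cancel]

/-- At most `2 l²` matrices over `ZMod l` have given trace and determinant. -/
theorem card_cp_fibre_le {l : ℕ} [Fact l.Prime]
    (s : Finset (Matrix (Fin 2) (Fin 2) (ZMod l))) (x : ZMod l × ZMod l)
    (hs : ∀ m ∈ s, cp m = x) : s.card ≤ 2 * l ^ 2 := by
  classical
  have h := Finset.card_le_card_of_injOn (s := s)
    (t := (Finset.univ : Finset ((ZMod l × ZMod l) ⊕ (ZMod l × ZMod l))))
    (fun m => if m 0 1 ≠ 0 then Sum.inl (m 0 0, m 0 1) else Sum.inr (m 0 0, m 1 0))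
    (fun _ _ => Finset.mem_univ _) fun m hm m' hm' e => by
      obtain ⟨t1, d1⟩ := Prod.ext_iff.mp (hs m hm)
      obtain ⟨t2, d2⟩ := Prod.ext_iff.mp (hs m' hm')
      simp only [cp, Matrix.trace_fin_two, Matrix.det_fin_two] at t1 d1 t2 d2
      by_cases h1 : m 0 1 = 0 <;> by_cases h2 : m' 0 1 = 0 <;>
        simp only [ne_eq, h1, h2, not_true, not_false_iff, if_true, if_false, reduceCtorEq,
          Sum.inl.injEq, Sum.inr.injEq, Prod.mk.injEq] at e
      · have e11 : m 1 1 = m' 1 1 := by linear_combination t1 - t2 - e.1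
        ext i j
        fin_cases i <;> fin_cases j <;> simp [h1, h2, e.1, e.2, e11]
      · have e11 : m 1 1 = m' 1 1 := by linear_combination t1 - t2 - e.1
        have e10 : m 1 0 = m' 1 0 := by
          refine mul_left_cancel₀ h1 ?_
          rw [e.1, e.2, e11] at d1
          rw [e.2]
          linear_combination d2 - d1
        ext i j
        fin_cases i <;> fin_cases j <;> simp [e.1, e.2, e10, e11]
  refine h.trans (le_of_eq ?_)
  simp [ZMod.card]
  ring

/-- A change of basis keeps the trace and the determinant. -/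
theorem cp_inv_conj {C D : M2k} (hCD : C * D = 1) (A : M2k) : cp (D * A * C) = cp A :=
  Prod.ext
    (by
      change (D * A * C).trace = _
      rw [Matrix.trace_mul_comm, ← mul_assoc, hCD, one_mul]; rfl)
    (by
      change (D * A * C).det = _
      rw [Matrix.det_mul, Matrix.det_mul, mul_comm, ← mul_assoc, ← Matrix.det_mul, hCD,
        Matrix.det_one, one_mul]; rfl)

/-- A matrix has entries in the range of `ι` when its products with the two root elements have
traces there. -/
theorem entries_mem_range_of_traces {K : Type*} [Field K] (ι : K →+* k) {b : k} (hb : b ≠ 0)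
    (hbr : b ∈ ι.range) {A : M2k} (t0 : A.trace ∈ ι.range)
    (t1 : (A * !![1, 1; 0, 1]).trace ∈ ι.range) (t2 : (A * !![1, 0; b, 1]).trace ∈ ι.range)
    (t3 : (A * !![1, 1; 0, 1] * !![1, 0; b, 1]).trace ∈ ι.range) (i j : Fin 2) :
    A i j ∈ ι.range := by
  obtain ⟨b₀, hb₀⟩ := hbr
  simp only [Matrix.trace_fin_two, Matrix.mul_apply, Fin.sum_univ_two, Matrix.of_apply,
    Matrix.cons_val', Matrix.cons_val_zero, Matrix.cons_val_one, Matrix.empty_val',
    Matrix.cons_val_fin_one] at t0 t1 t2 t3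
  have e10 : A 1 0 ∈ ι.range := by convert sub_mem t1 t0 using 1; ring
  have hbi : b⁻¹ ∈ ι.range := ⟨b₀⁻¹, by rw [map_inv₀, hb₀]⟩
  have e01 : A 0 1 ∈ ι.range := by
    convert mul_mem hbi (sub_mem t2 t0) using 1
    field_simp
    ring
  have e00 : A 0 0 ∈ ι.range := by
    convert mul_mem hbi (sub_mem (sub_mem t3 t1) (sub_mem t2 t0)) using 1
    field_simp
    ring
  have e11 : A 1 1 ∈ ι.range := by convert sub_mem t0 e00 using 1; ring
  fin_cases i <;> fin_cases j <;> assumption

/-- In a basis with two root elements the group is a group of matrices over the prime field. -/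
theorem exists_primeField_rep {l : ℕ} [Fact l.Prime] (ι : ZMod l →+* k)
    (htd : ∀ g ∈ G, ∃ a d : ZMod l, (g : M2k).trace = ι a ∧ (g : M2k).det = ι d)
    {C D : M2k} {u u' : G} {b : k} (hCD : C * D = 1) (hb : b ≠ 0)
    (hU : D * mat G u * C = !![1, 1; 0, 1]) (hV : D * mat G u' * C = !![1, 0; b, 1]) :
    ∃ (Φ : G →* Matrix (Fin 2) (Fin 2) (ZMod l)) (b₀ : ZMod l), b₀ ≠ 0 ∧ Function.Injective Φ ∧
      Φ u = !![1, 1; 0, 1] ∧ Φ u' = !![1, 0; b₀, 1] ∧
      ∀ g, cp (ι.mapMatrix (Φ g)) = cp (mat G g) := by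
  set h : G → M2k := fun g => D * mat G g * C with hh
  have hmul : ∀ g g', h (g * g') = h g * h g' := fun g g' => by
    simp only [hh, mat_mul]
    rw [show D * mat G g * C * (D * mat G g' * C) = D * mat G g * (C * D) * mat G g' * C by
      simp only [mul_assoc], hCD, mul_one]
    simp only [mul_assoc]
  have htr : ∀ g : G, (h g).trace ∈ ι.range := fun g => by
    obtain ⟨a, d, ha, -⟩ := htd g.1 g.2
    exact ⟨a, ha.symm.trans (Prod.ext_iff.mp (cp_inv_conj hCD (mat G g))).1.symm⟩
  have hu1 : h u = !![1, 1; 0, 1] := hU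
  have hu2 : h u' = !![1, 0; b, 1] := hV
  -- `b` and the entries lie in the prime field, as traces do
  obtain ⟨b₀, hb₀⟩ : b ∈ ι.range := by
    have h1 := sub_mem (htr (u * u')) (show (2 : k) ∈ ι.range from ⟨2, map_ofNat ι 2⟩)
    rw [hmul, hu1, hu2, show (!![1, 1; 0, 1] * !![1, 0; b, 1] : M2k).trace = b + 2 by
      simp [Matrix.trace_fin_two]; ring, add_sub_cancel_right] at h1
    exact h1
  have hent : ∀ g i j, h g i j ∈ ι.range := fun g => by
    have t1 := htr (g * u)
    have t2 := htr (g * u')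
    have t3 := htr (g * u * u')
    simp only [hmul, hu1, hu2] at t1 t2 t3
    exact entries_mem_range_of_traces ι hb ⟨b₀, hb₀⟩ (htr g) t1 t2 t3
  choose φ hφ using hent
  have hι : Function.Injective ι := ι.injective
  have hΦh : ∀ g, ι.mapMatrix (Matrix.of (φ g)) = h g := fun g => by
    ext i j
    exact hφ g i j
  -- so conjugation gives a map into matrices over the prime field
  let Φ : G →* Matrix (Fin 2) (Fin 2) (ZMod l) :=
    { toFun := fun g => Matrix.of (φ g)
      map_one' := Matrix.map_injective hι (by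
        change ι.mapMatrix _ = ι.mapMatrix _
        rw [hΦh, map_one]
        change D * mat G 1 * C = 1
        rw [show mat G 1 = 1 from rfl, mul_one, mul_eq_one_comm.mp hCD])
      map_mul' := fun g g' => Matrix.map_injective hι (by
        change ι.mapMatrix _ = ι.mapMatrix _
        rw [map_mul, hΦh, hΦh, hΦh, hmul]) }
  refine ⟨Φ, b₀, fun e => hb (by rw [← hb₀, e, map_zero]), fun g g' e => ?_, ?_, ?_, fun g => ?_⟩
  · refine mat_injective G ?_
    have e' : h g = h g' := by rw [← hΦh, ← hΦh]; exact congrArg ι.mapMatrix e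
    calc mat G g = (C * D) * mat G g * (C * D) := by rw [hCD, one_mul, mul_one]
      _ = C * h g * D := by simp only [hh, mul_assoc]
      _ = C * h g' * D := by rw [e']
      _ = (C * D) * mat G g' * (C * D) := by simp only [hh, mul_assoc]
      _ = mat G g' := by rw [hCD, one_mul, mul_one]
  · refine Matrix.map_injective hι ((hΦh u).trans (hu1.trans ?_))
    ext i j; fin_cases i <;> fin_cases j <;> simp
  · refine Matrix.map_injective hι ((hΦh u').trans (hu2.trans ?_))
    ext i j; fin_cases i <;> fin_cases j <;> simp [hb₀]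
  · exact (congrArg cp (hΦh g)).trans (cp_inv_conj hCD _)

/-- The group has at least `l² (l - 1)` elements. -/
theorem le_card_of_root_elements [Finite G] {l : ℕ} [Fact l.Prime]
    (Φ : G →* Matrix (Fin 2) (Fin 2) (ZMod l)) {u u' : G} {b₀ : ZMod l} (hb₀ : b₀ ≠ 0)
    (hu : Φ u = !![1, 1; 0, 1]) (hu' : Φ u' = !![1, 0; b₀, 1]) :
    (l - 1) * l ^ 2 ≤ Nat.card G := by
  classical
  have := Fintype.ofFinite G
  have hUp : ∀ n : ℕ, Φ (u ^ n) = !![1, (n : ZMod l); 0, 1] ∧
      Φ (u' ^ n) = !![1, 0; (n : ZMod l) * b₀, 1] := fun n => by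
    induction n with
    | zero =>
      rw [pow_zero, pow_zero, map_one]
      constructor <;> ext i j <;> fin_cases i <;> fin_cases j <;> simp
    | succ n ih =>
      rw [pow_succ, pow_succ, map_mul, map_mul, ih.1, ih.2, hu, hu']
      constructor <;> ext i j <;> fin_cases i <;> fin_cases j <;> simp <;> ring
  have hc : ((Finset.univ.erase (0 : ZMod l)) ×ˢ
      (Finset.univ : Finset (ZMod l × ZMod l))).card = (l - 1) * l ^ 2 := by
    rw [Finset.card_product, Finset.card_erase_of_mem (Finset.mem_univ _), Finset.card_univ,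
      Finset.card_univ, Fintype.card_prod, ZMod.card, sq]
  rw [← hc, Nat.card_eq_fintype_card, ← Finset.card_univ]
  refine Finset.card_le_card_of_injOn
    (fun a : ZMod l × ZMod l × ZMod l => u ^ a.2.1.val * u' ^ a.1.val * u ^ a.2.2.val)
    (fun _ _ => Finset.mem_univ _) ?_
  rintro ⟨y, x, z⟩ ha ⟨y', x', z'⟩ - e
  have hy : y ≠ 0 := (Finset.mem_erase.mp (Finset.mem_product.mp ha).1).1
  have e' := congrArg Φ e
  simp only [map_mul, (hUp _).1, (hUp _).2, ZMod.natCast_zmod_val] at e'
  have f10 := congrFun (congrFun e' 1) 0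
  have f00 := congrFun (congrFun e' 0) 0
  have f11 := congrFun (congrFun e' 1) 1
  simp [Matrix.mul_apply, Fin.sum_univ_two, hb₀] at f10 f00 f11
  subst f10
  simp [hy, hb₀] at f00 f11
  simp [f00, f11]

/-- Few elements have their characteristic polynomial in `S`. -/
theorem card_cp_mem_le [Finite G] {l : ℕ} [Fact l.Prime] (ι : ZMod l →+* k)
    (Φ : G →* Matrix (Fin 2) (Fin 2) (ZMod l)) (hΦ : Function.Injective Φ)
    (hcp : ∀ g, cp (ι.mapMatrix (Φ g)) = cp (mat G g)) (S : Finset (k × k)) :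
    Nat.card {g : G // cp (mat G g) ∈ S} ≤ 2 * l ^ 2 * S.card := by
  classical
  have := Fintype.ofFinite G
  rw [Nat.card_eq_fintype_card, Fintype.card_subtype]
  refine Finset.card_le_mul_card_image_of_maps_to (f := fun g => cp (mat G g))
    (fun a ha => (Finset.mem_filter.mp ha).2) (2 * l ^ 2) fun x _ => ?_
  rcases Finset.eq_empty_or_nonempty ((Finset.univ.filter fun g : G => cp (mat G g) ∈ S).filter
    fun g => cp (mat G g) = x) with e | ⟨g₀, hg₀⟩
  · rw [e, Finset.card_empty]; exact Nat.zero_le _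
  rw [← Finset.card_image_of_injective _ hΦ]
  refine card_cp_fibre_le _ (cp (Φ g₀)) fun m hm => ?_
  obtain ⟨g, hg, rfl⟩ := Finset.mem_image.mp hm
  have e : cp (ι.mapMatrix (Φ g)) = cp (ι.mapMatrix (Φ g₀)) := by
    rw [hcp, hcp, (Finset.mem_filter.mp hg).2, (Finset.mem_filter.mp hg₀).2]
  obtain ⟨e1, e2⟩ := Prod.ext_iff.mp e
  simp only [cp] at e1 e2
  refine Prod.ext (ι.injective ?_) (ι.injective ?_)
  · simpa [cp, Matrix.trace_fin_two] using e1
  · simpa [cp, Matrix.det_fin_two] using e2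

/-- **The bound when the characteristic divides the order.** -/
theorem card_le_of_dvd [Finite G] {l : ℕ} [Fact l.Prime] [CharP k l] (ι : ZMod l →+* k)
    (hl : l ∣ Nat.card G)
    (hss : ∀ v : Fin 2 → k, v ≠ 0 → (∀ g ∈ G, ∃ c : k, (g : M2k) *ᵥ v = c • v) →
      ∃ w : Fin 2 → k, (∀ c : k, w ≠ c • v) ∧ ∀ g ∈ G, ∃ c : k, (g : M2k) *ᵥ w = c • w)
    (htd : ∀ g ∈ G, ∃ a d : ZMod l, (g : M2k).trace = ι a ∧ (g : M2k).det = ι d)
    (S : Finset (k × k)) {M : ℕ} (hS : S.card ≤ M)
    (h34 : 3 * Nat.card G ≤ 4 * Nat.card {g : G // cp (mat G g) ∈ S}) :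
    Nat.card G ≤ (3 * M + 1) ^ 4 := by
  classical
  have := Fintype.ofFinite G
  obtain ⟨C, D, u, u', b, hCD, hb, hU, hV⟩ := exists_unipotent_basis G hl hss
  obtain ⟨Φ, b₀, hb₀, hΦ, hu, hu', hcp⟩ := exists_primeField_rep G ι htd hCD hb hU hV
  have hlow := le_card_of_root_elements G Φ hb₀ hu hu'
  have hgood : Nat.card {g : G // cp (mat G g) ∈ S} ≤ 2 * l ^ 2 * M :=
    (card_cp_mem_le G ι Φ hΦ hcp S).trans (Nat.mul_le_mul_left _ hS)
  have hup : Nat.card G ≤ l ^ 4 := by
    rw [Nat.card_eq_fintype_card]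
    refine (Fintype.card_le_of_injective Φ hΦ).trans (le_of_eq ?_)
    rw [← Fintype.card_congr (Matrix.of (m := Fin 2) (n := Fin 2) (α := ZMod l))]
    simp [← pow_mul]
  refine hup.trans (Nat.pow_le_pow_left ?_ 4)
  have hl2 : 0 < l ^ 2 := pow_pos (Fact.out : l.Prime).pos 2
  have h5 : 3 * (l - 1) ≤ 8 * M :=
    Nat.le_of_mul_le_mul_right (a := 3 * (l - 1)) (c := l ^ 2) (by nlinarith) hl2
  omega

end Fermat.DS

end
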