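import Fermat.Agent.DS.Defs
import Fermat.Agent.DS.Grp.Transvection

/-!
# Semisimple groups with few characteristic polynomials are bounded

Two cases: `l` divides the order (`DS/Grp/Transvection`) or not (`DS/Grp/Torus`).

`smallImageStatement`; with Rankin's bound it bounds the images in `DS/Main/Artin`.
-/

set_option autoImplicit false

noncomputable section

namespace Fermat.DS

/-- **The bound on semisimple subgroups with few characteristic polynomials**, split by whether
`l` divides the order. -/
theorem smallImageStatement : SmallImageStatement := by
  intro M
  refine ⟨(14 * M).factorial * (3 * M) + 14 * M + (3 * M + 1) ^ 4, ?_⟩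
  intro l _ G hfin hss htd S hS h34
  by_cases hl : l ∣ Nat.card G
  · exact (card_le_of_dvd G (algebraMap (ZMod l) _) hl hss htd S hS h34).trans
      (Nat.le_add_left _ _)
  · have := Fintype.ofFinite G
    refine (card_le_of_prime_to_char G ?_ S hS h34).trans (Nat.le_add_right _ _)
    rwa [Ne, CharP.cast_eq_zero_iff (AlgebraicClosure (ZMod l)) l]

end Fermat.DS

end
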