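import Fermat.Agent.DS.Grp.TwoByTwo

/-!
# Groups of order prime to the characteristic with few characteristic polynomials

Away from the scalars the centralisers are commutative and meet only in the scalars.  The union of
the conjugates of a large centraliser takes up half of the group, and holds few elements with given
characteristic polynomials.
-/

set_option autoImplicit false
set_option linter.unusedSectionVars false

noncomputable section

namespace Fermat.DS

variable {k : Type*} [Field k]

local notation "M2k" => Matrix (Fin 2) (Fin 2) k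

variable (G : Subgroup (GL (Fin 2) k))

/-- The matrix of an element. -/
abbrev mat (g : G) : M2k := (g.1 : M2k)

/-- `mat` is multiplicative. -/
theorem mat_mul (g h : G) : mat G (g * h) = mat G g * mat G h := rfl

/-- `mat` is injective. -/
theorem mat_injective : Function.Injective (mat G) :=
  Units.val_injective.comp Subtype.val_injective

/-- Elements commute exactly when their matrices do. -/
theorem commute_iff_mat {g h : G} : g * h = h * g ↔ mat G g * mat G h = mat G h * mat G g :=
  ⟨fun e => by rw [← mat_mul, e, mat_mul], fun e => mat_injective G e⟩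

/-- Conjugate elements have the same characteristic polynomial. -/
theorem cp_conj (x g : G) : cp (mat G (x * g * x⁻¹)) = cp (mat G g) := by
  have h : mat G (x * g * x⁻¹) = mat G x * mat G g * mat G x⁻¹ := rfl
  have hx : mat G x⁻¹ * mat G x = 1 := by rw [← mat_mul, inv_mul_cancel]; rfl
  refine Prod.ext ?_ ?_
  · change (mat G (x * g * x⁻¹)).trace = (mat G g).trace
    rw [h, Matrix.trace_mul_comm, ← mul_assoc, hx, one_mul]
  · change (mat G (x * g * x⁻¹)).det = (mat G g).det
    rw [h, Matrix.det_mul, Matrix.det_mul, mul_comm, ← mul_assoc, ← Matrix.det_mul, hx,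
      Matrix.det_one, one_mul]

/-- The scalar elements. -/
def scalarSub : Subgroup G where
  carrier := {g | IsScalarMat (mat G g)}
  one_mem' := ⟨1, (one_smul k (1 : M2k)).symm⟩
  mul_mem' := fun {a b} ⟨x, hx⟩ ⟨y, hy⟩ => ⟨x * y, by
    rw [mat_mul, hx, hy, smul_mul_assoc, one_mul, smul_smul]⟩
  inv_mem' := fun {a} ⟨x, hx⟩ => ⟨x⁻¹, by
    have h : mat G a * mat G a⁻¹ = 1 := by rw [← mat_mul, mul_inv_cancel]; rfl
    rw [hx, smul_mul_assoc, one_mul] at h
    rcases eq_or_ne x 0 with rfl | hx0
    · rw [zero_smul] at h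
      exact absurd h zero_ne_one
    · exact (eq_inv_smul_iff₀ hx0).mpr h⟩

/-- The scalars are central. -/
theorem scalar_comm {z : G} (hz : z ∈ scalarSub G) (g : G) : z * g = g * z := by
  obtain ⟨c, hc⟩ := hz
  rw [commute_iff_mat, hc, smul_mul_assoc, one_mul, mul_smul_comm, mul_one]

/-- The centraliser of an element. -/
def torus (g : G) : Subgroup G := Subgroup.centralizer {g}

/-- Membership in a centraliser. -/
theorem mem_torus {g h : G} : h ∈ torus G g ↔ h * g = g * h := by
  rw [torus, Subgroup.mem_centralizer_singleton_iff]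

/-- The centraliser of a non-scalar element is commutative. -/
theorem torus_comm {g : G} (hg : g ∉ scalarSub G) {a b : G} (ha : a ∈ torus G g)
    (hb : b ∈ torus G g) : a * b = b * a := by
  rw [mem_torus, commute_iff_mat] at ha hb
  obtain ⟨u, v, hu⟩ := exists_eq_of_commute hg ha.symm
  obtain ⟨u', v', hv⟩ := exists_eq_of_commute hg hb.symm
  rw [commute_iff_mat, hu, hv, commute_of_eq]

/-- Two centralisers sharing a non-scalar element coincide. -/
theorem torus_eq {g h : G} (hg : g ∉ scalarSub G) (hh : h ∈ torus G g) (hhs : h ∉ scalarSub G) :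
    torus G h = torus G g := by
  ext x
  have hgh : g ∈ torus G h := (mem_torus G).mpr ((mem_torus G).mp hh).symm
  exact ⟨fun hx => (mem_torus G).mpr (torus_comm G hhs hx hgh),
    fun hx => (mem_torus G).mpr (torus_comm G hg hx hh)⟩

variable [Finite G] (hG : (Nat.card G : k) ≠ 0)

include hG in
/-- A non-scalar element of order prime to the characteristic has distinct eigenvalues. -/
theorem disc_mat {g : G} (hg : g ∉ scalarSub G) :
    (mat G g).trace ^ 2 - 4 * (mat G g).det ≠ 0 := by
  refine disc_ne_zero (m := orderOf g) (fun e => hG ?_) ?_ hg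
  · obtain ⟨c, hc⟩ := orderOf_dvd_natCard g
    rw [hc, Nat.cast_mul, e, zero_mul]
  · have h : mat G (g ^ orderOf g) = mat G g ^ orderOf g :=
      map_pow ((Units.coeHom M2k).comp G.subtype) g _
    rw [← h, pow_orderOf_eq_one]
    rfl

include hG in
/-- Commuting elements with one characteristic polynomial are at most two. -/
theorem card_fibre_le_two {s : Finset G} (hs : ∀ a ∈ s, ∀ b ∈ s, a * b = b * a) (x : k × k)
    (hx : ∀ a ∈ s, cp (mat G a) = x) : s.card ≤ 2 := by
  classical
  rcases s.eq_empty_or_nonempty with rfl | ⟨h₀, h₀s⟩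
  · simp
  rw [← Finset.card_image_of_injective s (mat_injective G)]
  refine (Finset.card_le_card (t := {mat G h₀, (mat G h₀).trace • 1 - mat G h₀})
    fun m hm => ?_).trans
    Finset.card_le_two
  obtain ⟨a, has, rfl⟩ := Finset.mem_image.mp hm
  rw [Finset.mem_insert, Finset.mem_singleton]
  have hcp : cp (mat G a) = cp (mat G h₀) := (hx a has).trans (hx h₀ h₀s).symm
  by_cases hh : h₀ ∈ scalarSub G
  · obtain ⟨c, hc⟩ := hh
    by_cases ha : a ∈ scalarSub G
    · obtain ⟨c', hc'⟩ := ha
      obtain ⟨e1, e2⟩ := Prod.ext_iff.mp hcp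
      simp only [cp, hc, hc', Matrix.trace_smul, Matrix.det_smul, Matrix.trace_one, Matrix.det_one,
        Fintype.card_fin, smul_eq_mul, mul_one] at e1 e2
      left
      rw [hc, hc']
      congr 1
      rcases sq_eq_sq_iff_eq_or_eq_neg.mp e2 with e | e
      · exact e
      · rcases eq_or_ne (2 : k) 0 with h2 | h2
        · rw [e]; linear_combination (-c) * h2
        · exact mul_left_cancel₀ h2 (by push_cast at e1; linear_combination e1)
    · refine absurd ?_ (disc_mat G hG ha)
      obtain ⟨e1, e2⟩ := Prod.ext_iff.mp hcp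
      simp only [cp] at e1 e2
      rw [e1, e2, hc]
      simp
      ring
  · obtain ⟨u, v, huv⟩ := exists_eq_of_commute hh ((commute_iff_mat G).mp (hs h₀ h₀s a has))
    exact eq_or_eq_of_cp_eq (disc_mat G hG hh) huv hcp

include hG in
/-- Commuting elements with characteristic polynomials in `S` are at most `2 |S|`. -/
theorem card_comm_le {s : Finset G} (hs : ∀ a ∈ s, ∀ b ∈ s, a * b = b * a) (S : Finset (k × k))
    (hx : ∀ a ∈ s, cp (mat G a) ∈ S) : s.card ≤ 2 * S.card := by
  classical
  refine Finset.card_le_mul_card_image_of_maps_to (f := fun a => cp (mat G a)) hx 2 fun x _ => ?_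
  exact card_fibre_le_two G hG (fun a ha b hb => hs a (Finset.mem_of_mem_filter a ha) b
    (Finset.mem_of_mem_filter b hb)) x fun a ha => (Finset.mem_filter.mp ha).2

include hG in
/-- An element normalises its centraliser through at most two cosets. -/
theorem card_conj_mem_le [Fintype G] {g : G} (hg : g ∉ scalarSub G) (s : Finset G)
    (hs : ∀ x ∈ s, x⁻¹ * g * x ∈ torus G g) : s.card ≤ 2 * Nat.card (torus G g) := by
  classical
  have h1 := Finset.card_le_mul_card_image (f := fun x => x⁻¹ * g * x) s (Nat.card (torus G g))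
    fun y hy => ?_
  · refine h1.trans ?_
    rw [mul_comm]
    refine Nat.mul_le_mul_right _ (card_fibre_le_two G hG (fun a ha b hb => ?_) (cp (mat G g))
      fun a ha => ?_)
    · obtain ⟨x, hx, rfl⟩ := Finset.mem_image.mp ha
      obtain ⟨x', hx', rfl⟩ := Finset.mem_image.mp hb
      exact torus_comm G hg (hs x hx) (hs x' hx')
    · obtain ⟨x, -, rfl⟩ := Finset.mem_image.mp ha
      simpa using cp_conj G x⁻¹ g
  · obtain ⟨x₀, -, hx₀⟩ := Finset.mem_image.mp hy
    rw [Nat.card_eq_fintype_card, ← Finset.card_univ]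
    refine Finset.card_le_card_of_injOn (fun x => if hx : x * x₀⁻¹ ∈ torus G g then ⟨_, hx⟩ else 1)
      (fun _ _ => Finset.mem_univ _) fun x hx x' hx' e => ?_
    have key : ∀ x ∈ s.filter (fun x => x⁻¹ * g * x = y), x * x₀⁻¹ ∈ torus G g := fun x hx => by
      obtain ⟨-, hxy⟩ := Finset.mem_filter.mp hx
      have e : x⁻¹ * g * x = x₀⁻¹ * g * x₀ := hxy.trans hx₀.symm
      rw [mem_torus]
      calc x * x₀⁻¹ * g = x * (x₀⁻¹ * g * x₀) * x₀⁻¹ := by group
        _ = x * (x⁻¹ * g * x) * x₀⁻¹ := by rw [e]
        _ = g * (x * x₀⁻¹) := by group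
    simp only [dif_pos (key x hx), dif_pos (key x' hx'), Subtype.mk.injEq] at e
    exact mul_right_cancel e

include hG in
/-- When three quarters of the group have their characteristic polynomial in `S`, the scalars
are few. -/
theorem card_scalarSub_le [Fintype G] (S : Finset (k × k)) {M : ℕ} (hS : S.card ≤ M)
    (h34 : 3 * Nat.card G ≤ 4 * Nat.card {g : G // cp (mat G g) ∈ S}) :
    Nat.card (scalarSub G) ≤ 3 * M := by
  classical
  set Z := scalarSub G
  rw [Nat.card_eq_fintype_card (α := {g : G // cp (mat G g) ∈ S}), Fintype.card_subtype] at h34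
  set good : Finset G := Finset.univ.filter fun g => cp (mat G g) ∈ S with hgood
  have h1 := Finset.card_le_mul_card_image (f := (QuotientGroup.mk : G → G ⧸ Z)) good (2 * S.card)
    fun c hc => card_comm_le G hG (fun a ha b hb => ?_) S fun a ha => by
      simpa [hgood] using Finset.mem_of_mem_filter a ha
  · have h2 : (good.image (QuotientGroup.mk : G → G ⧸ Z)).card ≤ Nat.card (G ⧸ Z) := by
      rw [Nat.card_eq_fintype_card]; exact Finset.card_le_univ _
    have h3 : Nat.card G = Nat.card (G ⧸ Z) * Nat.card Z :=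
      Subgroup.card_eq_card_quotient_mul_card_subgroup Z
    have h4 : 0 < Nat.card (G ⧸ Z) := Nat.card_pos
    have h5 : 3 * Nat.card (G ⧸ Z) * Nat.card Z ≤ 8 * M * Nat.card (G ⧸ Z) := by
      calc 3 * Nat.card (G ⧸ Z) * Nat.card Z = 3 * Nat.card G := by rw [h3]; ring
        _ ≤ 4 * good.card := h34
        _ ≤ 4 * (2 * S.card * Nat.card (G ⧸ Z)) :=
          Nat.mul_le_mul_left 4 (h1.trans (Nat.mul_le_mul_left _ h2))
        _ ≤ 4 * (2 * M * Nat.card (G ⧸ Z)) :=
          Nat.mul_le_mul_left 4 (Nat.mul_le_mul_right _ (Nat.mul_le_mul_left 2 hS))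
        _ = 8 * M * Nat.card (G ⧸ Z) := by ring
    nlinarith
  · have e : (QuotientGroup.mk a : G ⧸ Z) = QuotientGroup.mk b :=
      (Finset.mem_filter.mp ha).2.trans (Finset.mem_filter.mp hb).2.symm
    have hz : a⁻¹ * b ∈ Z := QuotientGroup.eq.mp e
    calc a * b = a * (a * (a⁻¹ * b)) := by group
      _ = a * ((a⁻¹ * b) * a) := by rw [scalar_comm G hz a]
      _ = b * a := by group

/-- The conjugate of the second element of a pair by the first. -/
def conjPair (a : G × G) : G := a.1 * a.2 * a.1⁻¹

include hG in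
/-- An element is the conjugate of a non-scalar of a centraliser in at most twice as many ways as
the centraliser has elements. -/
theorem card_pairs_le_mul_card_conj [Fintype G] [DecidableEq G] {g : G} (hg : g ∉ scalarSub G)
    {s : Finset G} (hs : ∀ h ∈ s, h ∈ torus G g ∧ h ∉ scalarSub G) :
    ((Finset.univ : Finset G) ×ˢ s).card ≤
      2 * Nat.card (torus G g) * (((Finset.univ : Finset G) ×ˢ s).image (conjPair G)).card := by
  refine Finset.card_le_mul_card_image _ _ fun y hy => ?_
  obtain ⟨⟨x₀, h₀⟩, hp₀, hy₀⟩ := Finset.mem_image.mp hy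
  obtain ⟨hh₀T, hh₀Z⟩ := hs h₀ (Finset.mem_product.mp hp₀).2
  have hsnd : ∀ a ∈ ((Finset.univ : Finset G) ×ˢ s).filter (fun a => conjPair G a = y),
      a.2 = a.1⁻¹ * y * a.1 := fun a ha => by
    rw [← (Finset.mem_filter.mp ha).2]; simp [conjPair, mul_assoc]
  refine le_trans
    (le_of_eq (Finset.card_image_of_injOn (f := fun a : G × G => x₀⁻¹ * a.1) ?_).symm) ?_
  · intro a ha b hb e
    have e1 : a.1 = b.1 := mul_left_cancel e
    exact Prod.ext e1 (by rw [hsnd a ha, hsnd b hb, e1])
  rw [← torus_eq G hg hh₀T hh₀Z]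
  refine card_conj_mem_le G hG hh₀Z _ fun u hu => ?_
  obtain ⟨a, ha, rfl⟩ := Finset.mem_image.mp hu
  have h2 : a.2 ∈ torus G g := (hs _ (Finset.mem_product.mp (Finset.mem_filter.mp ha).1).2).1
  rw [torus_eq G hg hh₀T hh₀Z]
  convert h2 using 1
  rw [hsnd a ha, ← hy₀]
  simp [conjPair, mul_assoc]

/-- An element which is the conjugate of an element of a centraliser is so in at least as many
ways as the centraliser has elements. -/
theorem card_torus_mul_card_conj_le [Fintype G] [DecidableEq G] {g : G} (hg : g ∉ scalarSub G)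
    {s : Finset G} (hs : ∀ h ∈ s, h ∈ torus G g) :
    Nat.card (torus G g) * (((Finset.univ : Finset G) ×ˢ s).image (conjPair G)).card ≤
      ((Finset.univ : Finset G) ×ˢ s).card := by
  classical
  rw [Nat.card_eq_fintype_card, Fintype.card_subtype]
  refine Finset.mul_card_image_le_card _ _ fun y hy => ?_
  obtain ⟨⟨x₀, h₀⟩, hp₀, hy₀⟩ := Finset.mem_image.mp hy
  obtain ⟨-, hh₀⟩ := Finset.mem_product.mp hp₀
  refine Finset.card_le_card_of_injOn (fun t => (x₀ * t, h₀)) (fun t ht => ?_)
    fun t _ t' _ e => mul_left_cancel (congrArg Prod.fst e)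
  refine Finset.mem_filter.mpr ⟨Finset.mem_product.mpr ⟨Finset.mem_univ _, hh₀⟩, ?_⟩
  have ht' : t * h₀ = h₀ * t := torus_comm G hg (by simpa using ht) (hs h₀ hh₀)
  rw [← hy₀]
  change x₀ * t * h₀ * (x₀ * t)⁻¹ = x₀ * h₀ * x₀⁻¹
  rw [mul_assoc x₀ t h₀, ht']
  simp [mul_assoc]

/-- The conjugates with characteristic polynomial in `S` are conjugates of such elements. -/
theorem card_filter_add_card_conj_le [Fintype G] [DecidableEq G] (S : Finset (k × k))
    [DecidablePred fun g : G => cp (mat G g) ∈ S] (s : Finset G) :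
    (Finset.univ.filter fun g : G => cp (mat G g) ∈ S).card +
        (((Finset.univ : Finset G) ×ˢ s).image (conjPair G)).card ≤
      Nat.card G + (((Finset.univ : Finset G) ×ˢ
        s.filter fun g : G => cp (mat G g) ∈ S).image (conjPair G)).card := by
  rw [← Finset.card_union_add_card_inter]
  refine Nat.add_le_add (by rw [Nat.card_eq_fintype_card]; exact Finset.card_le_univ _)
    (Finset.card_le_card fun y hy => ?_)
  obtain ⟨hyg, hyP⟩ := Finset.mem_inter.mp hy
  obtain ⟨⟨x₀, h₀⟩, hp₀, rfl⟩ := Finset.mem_image.mp hyP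
  refine Finset.mem_image.mpr ⟨(x₀, h₀), Finset.mem_product.mpr ⟨Finset.mem_univ _,
    Finset.mem_filter.mpr ⟨(Finset.mem_product.mp hp₀).2, ?_⟩⟩, rfl⟩
  rw [Finset.mem_filter, conjPair, cp_conj] at hyg
  exact hyg.2

include hG in
/-- When three quarters of the group have their characteristic polynomial in `S`, no centraliser
of a non-scalar is large. -/
theorem card_torus_le [Fintype G] (S : Finset (k × k)) {M : ℕ} (hS : S.card ≤ M)
    (h34 : 3 * Nat.card G ≤ 4 * Nat.card {g : G // cp (mat G g) ∈ S}) {g : G}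
    (hg : g ∉ scalarSub G) : Nat.card (torus G g) ≤ 14 * M := by
  classical
  have hZ := card_scalarSub_le G hG S hS h34
  rw [Nat.card_eq_fintype_card (α := {g : G // cp (mat G g) ∈ S}), Fintype.card_subtype] at h34
  set T : Finset G := Finset.univ.filter fun h => h ∈ torus G g
  set TZ : Finset G := T.filter fun h => h ∉ scalarSub G
  have hTc : T.card = Nat.card (torus G g) := by
    rw [Nat.card_eq_fintype_card, Fintype.card_subtype]
  have hTZ : ∀ h ∈ TZ, h ∈ torus G g ∧ h ∉ scalarSub G := fun h => by simp [TZ, T]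
  set P : Finset (G × G) := (Finset.univ : Finset G) ×ˢ TZ
  set Pg : Finset (G × G) :=
    (Finset.univ : Finset G) ×ˢ TZ.filter fun h => cp (mat G h) ∈ S
  have hU : P.card ≤ 2 * T.card * (P.image (conjPair G)).card :=
    hTc ▸ card_pairs_le_mul_card_conj G hG hg hTZ
  have hUg : T.card * (Pg.image (conjPair G)).card ≤ Pg.card :=
    hTc ▸ card_torus_mul_card_conj_le G hg fun h hh => (hTZ h (Finset.mem_filter.mp hh).1).1
  have hPg : Pg.card ≤ Nat.card G * (2 * M) := by
    rw [Finset.card_product, Finset.card_univ, ← Nat.card_eq_fintype_card]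
    refine Nat.mul_le_mul_left _ ((card_comm_le G hG (fun a ha b hb => ?_) S fun a ha => ?_).trans
      (Nat.mul_le_mul_left 2 hS))
    · exact torus_comm G hg (hTZ a (Finset.mem_filter.mp ha).1).1
        (hTZ b (Finset.mem_filter.mp hb).1).1
    · exact (Finset.mem_filter.mp ha).2
  have hP : P.card = Nat.card G * TZ.card := by
    rw [Finset.card_product, Finset.card_univ, Nat.card_eq_fintype_card]
  have hsub : (Finset.univ.filter fun g : G => cp (mat G g) ∈ S).card +
      (P.image (conjPair G)).card ≤ Nat.card G + (Pg.image (conjPair G)).card :=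
    card_filter_add_card_conj_le G S TZ
  have hTZc : T.card ≤ TZ.card + Nat.card (scalarSub G) := by
    have h1 : TZ.card + (T.filter fun h => ¬ h ∉ scalarSub G).card = T.card :=
      Finset.card_filter_add_card_filter_not _
    have h2 : (T.filter fun h => ¬ h ∉ scalarSub G).card ≤ Nat.card (scalarSub G) := by
      rw [Nat.card_eq_fintype_card, Fintype.card_subtype]
      exact Finset.card_le_card fun h hh => by simp_all
    omega
  rw [← hTc]
  -- `G (T - Z) ≤ 2 T U`, `4 U ≤ G + 4 Ug`, `T Ug ≤ 2 M G`
  have k1 : 4 * (P.image (conjPair G)).card ≤ Nat.card G + 4 * (Pg.image (conjPair G)).card := by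
    omega
  have k2 : 4 * (Nat.card G * T.card) ≤ 4 * (Nat.card G * Nat.card (scalarSub G)) +
      2 * T.card * (4 * (P.image (conjPair G)).card) := by
    have := Nat.mul_le_mul_left (Nat.card G) hTZc
    rw [mul_add, ← hP] at this
    nlinarith [hU]
  have k3 : 4 * (Nat.card G * T.card) ≤ 4 * (Nat.card G * Nat.card (scalarSub G)) +
      2 * (Nat.card G * T.card) + 16 * (Nat.card G * M) := by
    have h1 := Nat.mul_le_mul_left (2 * T.card) k1
    have h2 := hUg.trans hPg
    nlinarith
  have k4 : T.card ≤ 2 * Nat.card (scalarSub G) + 8 * M := by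
    have : Nat.card G * T.card ≤ Nat.card G * (2 * Nat.card (scalarSub G) + 8 * M) := by nlinarith
    exact Nat.le_of_mul_le_mul_left this Nat.card_pos
  omega

/-- The representatives of the classes with more than one element are not scalar. -/
theorem notMem_scalarSub_of_noncenter {g : G} (hx : ConjClasses.mk g ∈ ConjClasses.noncenter G) :
    g ∉ scalarSub G := fun hz => by
  have h1 : (ConjClasses.mk g).carrier.Subsingleton := fun a ha b hb => by
    obtain ⟨u, hu⟩ := isConj_iff.mp (ConjClasses.mk_eq_mk_iff_isConj.mp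
      (ConjClasses.mem_carrier_iff_mk_eq.mp ha).symm)
    obtain ⟨v, hv⟩ := isConj_iff.mp (ConjClasses.mk_eq_mk_iff_isConj.mp
      (ConjClasses.mem_carrier_iff_mk_eq.mp hb).symm)
    rw [← hu, ← hv, ← scalar_comm G hz u, ← scalar_comm G hz v, mul_inv_cancel_right,
      mul_inv_cancel_right]
  exact Set.not_nontrivial_iff.mpr h1 hx

/-- The class equation, when the centralisers of the non-scalars have at most `n` elements. -/
theorem natCard_dvd_factorial_mul_noncenter [Fintype G] {n : ℕ}
    (hn : ∀ g ∉ scalarSub G, Nat.card (torus G g) ≤ n) :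
    Nat.card G ∣ n.factorial * ∑ᶠ x ∈ ConjClasses.noncenter G, Nat.card x.carrier := by
  classical
  refine finsum_mem_induction (fun m => Nat.card G ∣ n.factorial * m) (by simp)
    (fun a b ha hb => by rw [mul_add]; exact dvd_add ha hb) fun x hx => ?_
  obtain ⟨g, rfl⟩ := ConjClasses.exists_rep x
  have hcard : Nat.card (ConjClasses.mk g).carrier * Nat.card (torus G g) = Nat.card G := by
    rw [torus, Subgroup.nat_card_centralizer_nat_card_stabilizer, Nat.card_eq_fintype_card,
      Nat.card_eq_fintype_card, Nat.card_eq_fintype_card]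
    simp_rw [← ConjAct.orbit_eq_carrier_conjClasses]
    rw [MulAction.card_orbit_mul_card_stabilizer_eq_card_group (ConjAct G) g, ConjAct.card]
  obtain ⟨c, hc⟩ : Nat.card (torus G g) ∣ n.factorial :=
    Nat.dvd_factorial Nat.card_pos (hn g (notMem_scalarSub_of_noncenter G hx))
  exact ⟨c, by rw [hc, ← hcard]; ring⟩

include hG in
/-- **The bound for groups of order prime to the characteristic.** -/
theorem card_le_of_prime_to_char [Fintype G] (S : Finset (k × k)) {M : ℕ} (hS : S.card ≤ M)
    (h34 : 3 * Nat.card G ≤ 4 * Nat.card {g : G // cp (mat G g) ∈ S}) :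
    Nat.card G ≤ (14 * M).factorial * (3 * M) + 14 * M := by
  classical
  set Z := scalarSub G
  have hZ : Nat.card Z ≤ 3 * M := card_scalarSub_le G hG S hS h34
  have hT : ∀ g ∉ Z, Nat.card (torus G g) ≤ 14 * M := fun g => card_torus_le G hG S hS h34
  -- the class equation
  by_cases hc : ∃ g ∈ Subgroup.center G, g ∉ Z
  · obtain ⟨g, hgc', hgZ⟩ := hc
    have : torus G g = ⊤ := eq_top_iff.mpr fun x _ =>
      (mem_torus G).mpr (Subgroup.mem_center_iff.mp hgc' x)
    have h := hT g hgZ
    rw [this, Subgroup.card_top] at h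
    omega
  push Not at hc
  have hcZ : Subgroup.center G = Z := le_antisymm hc fun z hz =>
    Subgroup.mem_center_iff.mpr fun x => (scalar_comm G hz x).symm
  have heq := Group.nat_card_center_add_sum_card_noncenter_eq_card G
  rw [hcZ] at heq
  set B := (14 * M).factorial
  have h3 : Nat.card G ∣
      B * Nat.card Z + B * ∑ᶠ x ∈ ConjClasses.noncenter G, Nat.card x.carrier := by
    rw [← mul_add, heq]; exact dvd_mul_left _ _
  have h2 : Nat.card G ∣ B * Nat.card Z :=
    (Nat.dvd_add_left (natCard_dvd_factorial_mul_noncenter G hT)).mp h3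
  have hBpos : 0 < B * Nat.card Z := Nat.mul_pos (Nat.factorial_pos _) Nat.card_pos
  exact (Nat.le_of_dvd hBpos h2).trans (le_add_right (Nat.mul_le_mul_left B hZ))

end Fermat.DS

end
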